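/-
S16 library, package M4 (helper7): values at `ρ` of level-one modular forms with coefficients in a
subring `A ⊆ ℂ`.

* `exists_sub_mul_discriminant`: for `f ∈ M_k(SL₂ℤ)` with `q`-expansion in `A⟦q⟧` and
  `4α + 6β = k`: `f = a₀ E₄^α E₆^β + Δ h` with `h ∈ M_{k-12}(SL₂ℤ)` again with `q`-expansion in
  `A⟦q⟧` (division by `Δ = q ∏ (1 - qⁿ)²⁴` preserves integrality; no denominators needed).
* `rho_value_mem`: for `f` of weight `12 i`, `f(ρ) / Δ(ρ)^i ∈ A`.
* `E₆_rho_sq`: `E₆(ρ)² = -1728 Δ(ρ)`.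
-/
import Fermat.Agent.S16lib.SwDBridge.Structure

set_option autoImplicit false

noncomputable section

namespace Fermat.Agent.S16lib.M4

open UpperHalfPlane ModularForm MatrixGroups CongruenceSubgroup SlashInvariantForm
  ModularFormClass EisensteinSeries
open Fermat.Agent.ProgramR.LevelOne Fermat.Agent.ProgramR.QExp Fermat.Agent.S16lib.SwDBridge

/-- Subtract the constant term times a monomial in `E₄, E₆` and divide by `Δ`, keeping the
coefficients in `A`. -/
theorem exists_sub_mul_discriminant (A : Subring ℂ) (α β : ℕ) {k : ℤ}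
    (hwt : (α : ℤ) * 4 + (β : ℤ) * 6 = k) (f : ModularForm 𝒮ℒ k) (a : PowerSeries A)
    (ha : a.map A.subtype = qExpansion 1 f) :
    ∃ (h : ModularForm 𝒮ℒ (k - 12)) (hA : PowerSeries A),
      hA.map A.subtype = qExpansion 1 h ∧
      ∀ z : ℍ, f z = ((PowerSeries.coeff 0 a : A) : ℂ) * (E₄ z ^ α * E₆ z ^ β) +
        ModularForm.discriminant z * h z := by
  set mon : ModularForm 𝒮ℒ k := ModularForm.mcast hwt ((E₄.pow α).mul (E₆.pow β)) with hmon_def
  have hmon : qExpansion 1 mon = ((QA A ^ α * RA A ^ β).map A.subtype) := by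
    rw [hmon_def, ModularForm.qExpansion_mcast, qExpansion_monomialForm]
  set a₀ : A := PowerSeries.coeff 0 a with ha₀
  set gA : PowerSeries A := a - PowerSeries.C a₀ * (QA A ^ α * RA A ^ β) with hgA
  set g : ModularForm 𝒮ℒ k := f - ((a₀ : A) : ℂ) • mon with hg_def
  have hg : qExpansion 1 g = gA.map A.subtype := by
    have h1 : (g : ℍ → ℂ) = (f : ℍ → ℂ) - (((a₀ : A) : ℂ) • mon : ModularForm 𝒮ℒ k) := rfl
    rw [h1, ModularForm.qExpansion_sub one_pos one_mem_strictPeriods_SL f
      ((((a₀ : A) : ℂ) • mon : ModularForm 𝒮ℒ k))]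
    have h2 : ((((a₀ : A) : ℂ) • mon : ModularForm 𝒮ℒ k) : ℍ → ℂ) =
        ((a₀ : A) : ℂ) • (mon : ℍ → ℂ) := rfl
    rw [h2, ModularForm.qExpansion_smul one_pos one_mem_strictPeriods_SL, hmon, ← ha, hgA,
      map_sub, map_mul (PowerSeries.map A.subtype) (PowerSeries.C a₀), PowerSeries.map_C,
      PowerSeries.smul_eq_C_mul]
    rfl
  have hcusp : (qExpansion 1 g).coeff 0 = 0 := by
    rw [hg, PowerSeries.coeff_map, hgA]
    simp [ha₀]
  set h := CuspForm.discriminantEquiv (ModularForm.toCuspForm g hcusp) with hh_def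
  have hgh : qExpansion 1 g = qExpansion 1 ModularForm.discriminant * qExpansion 1 h :=
    ModularForm.qExpansion_eq_qExpansion_discriminant_mul g hcusp
  set hA : PowerSeries A := PowerSeries.mk fun m => PowerSeries.coeff (m + 1) (UinvA A * gA)
    with hhA
  have hXh : PowerSeries.X * qExpansion 1 h = (UinvA A * gA).map A.subtype := by
    rw [map_mul, ← hg, hgh, qExpansion_discriminant', ← map_map_int A Dz, ← mul_assoc,
      ← map_mul, ← DA, mul_comm (UinvA A), DA_mul_UinvA, PowerSeries.map_X]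
  have hhAmap : hA.map A.subtype = qExpansion 1 h := by
    ext m
    rw [PowerSeries.coeff_map, hhA, PowerSeries.coeff_mk, ← PowerSeries.coeff_map, ← hXh,
      PowerSeries.coeff_succ_X_mul]
  refine ⟨h, hA, hhAmap, ?_⟩
  intro z
  have h1 : ModularForm.discriminant z * h z = g z := by
    rw [hh_def, ModularForm.discriminant_mul_discriminantEquiv_apply]
    rfl
  have h2 : g z = f z - ((a₀ : A) : ℂ) * (E₄ z ^ α * E₆ z ^ β) := by
    have : mon z = E₄ z ^ α * E₆ z ^ β := by
      rw [hmon_def, ModularForm.mcast_apply]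
      simp
    rw [hg_def, sub_apply, smul_apply, this, smul_eq_mul]
  rw [h1, h2]; ring

/-- For a level-one form `f` of weight `12 i` with `q`-expansion coefficients in `A`,
`f(ρ) / Δ(ρ)^i ∈ A`. -/
theorem rho_value_mem (A : Subring ℂ) :
    ∀ (i : ℕ) (k : ℤ), k = 12 * (i : ℤ) → ∀ (f : ModularForm 𝒮ℒ k) (a : PowerSeries A),
      a.map A.subtype = qExpansion 1 f → f ρ / ModularForm.discriminant ρ ^ i ∈ A := by
  intro i
  induction i with
  | zero =>
    intro k hk f a ha
    have hwt : ((0 : ℕ) : ℤ) * 4 + ((0 : ℕ) : ℤ) * 6 = k := by rw [hk]; simp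
    obtain ⟨h, hA, _, hz⟩ := exists_sub_mul_discriminant A 0 0 hwt f a ha
    have hh0 : h = 0 := eq_zero_of_weight (Or.inl (by omega)) h
    rw [hz ρ, hh0]
    simp
  | succ j ih =>
    intro k hk f a ha
    have hwt : ((3 * (j + 1) : ℕ) : ℤ) * 4 + ((0 : ℕ) : ℤ) * 6 = k := by rw [hk]; push_cast; ring
    obtain ⟨h, hA, hhA, hz⟩ := exists_sub_mul_discriminant A (3 * (j + 1)) 0 hwt f a ha
    have hk' : k - 12 = 12 * (j : ℤ) := by rw [hk]; push_cast; ring
    have := ih (k - 12) hk' h hA hhA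
    have hΔ : ModularForm.discriminant ρ ≠ 0 := ModularForm.discriminant_ne_zero ρ
    have e : f ρ / ModularForm.discriminant ρ ^ (j + 1) =
        h ρ / ModularForm.discriminant ρ ^ j := by
      rw [hz ρ, E₄_ρ, zero_pow (by omega), zero_mul, mul_zero, zero_add, pow_succ]
      field_simp
    rw [e]; exact this

/-- `E₆(ρ)² = -1728 Δ(ρ)`. -/
theorem E₆_rho_sq : E₆ ρ ^ 2 = -1728 * ModularForm.discriminant ρ := by
  have := ModularForm.discriminant_eq_E₄_cube_sub_E₆_sq ρ
  rw [E₄_ρ] at this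
  rw [this]; ring

end Fermat.Agent.S16lib.M4
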