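import Fermat.Agent.S16lib.M4.Alg
import Fermat.Agent.ProgramR.LevelOne.Elliptic

/-!
# S16, MT4: the weight-12 forms `Z`, `V = L₂³` on `Γ₀(p)`, their conjugates, and the value at `ρ`

For `G ∈ M₂(Γ₀(p))` and a constant `c` put
`K = (G E₄ - c E₆)/8`, `L₂ = (G² - c² E₄)/16`, `Z = (K² - G² L₂²)/4`, `V = L₂³`.
-/

set_option autoImplicit false

noncomputable section

namespace Fermat.Agent.S16lib.M4.Forms

open UpperHalfPlane ModularForm MatrixGroups CongruenceSubgroup EisensteinSeries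
open scoped Modular
open Fermat.Agent.ProgramR.LevelOne

local notation "Δ" => ModularForm.discriminant

/-! ### Function-level definitions -/

/-- `K = (g E₄ - c E₆)/8`. -/
def Kfun (c : ℂ) (g : ℍ → ℂ) : ℍ → ℂ := fun τ => (g τ * E₄ τ - c * E₆ τ) / 8
/-- `L₂ = (g² - c² E₄)/16`. -/
def Lfun (c : ℂ) (g : ℍ → ℂ) : ℍ → ℂ := fun τ => (g τ ^ 2 - c ^ 2 * E₄ τ) / 16
/-- `Z = (K² - g² L₂²)/4`. -/
def Zfun (c : ℂ) (g : ℍ → ℂ) : ℍ → ℂ :=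
  fun τ => (Kfun c g τ ^ 2 - g τ ^ 2 * Lfun c g τ ^ 2) / 4
/-- `V = L₂³`. -/
def Vfun (c : ℂ) (g : ℍ → ℂ) : ℍ → ℂ := fun τ => Lfun c g τ ^ 3

lemma slash_two_apply (g : ℍ → ℂ) (γ : SL(2, ℤ)) (τ : ℍ) :
    (g ∣[(2 : ℤ)] γ) τ = g (γ • τ) * denom γ τ ^ (-2 : ℤ) := by
  rw [ModularForm.SL_slash_apply]

lemma Kfun_slash (c : ℂ) (g : ℍ → ℂ) (γ : SL(2, ℤ)) :
    Kfun c g ∣[(6 : ℤ)] γ = Kfun c (g ∣[(2 : ℤ)] γ) := by
  funext τ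
  have hd : denom γ τ ≠ 0 := denom_ne_zero _ _
  rw [ModularForm.SL_slash_apply, Kfun, Kfun, slash_two_apply]
  have h4 := E₄_smul γ τ
  have h6 := E₆_smul γ τ
  rw [h4, h6]
  have e4 : denom γ τ ^ (4 : ℤ) = denom γ τ ^ 4 := by norm_cast
  have e6 : denom γ τ ^ (6 : ℤ) = denom γ τ ^ 6 := by norm_cast
  have e2 : denom γ τ ^ (-2 : ℤ) = (denom γ τ ^ 2)⁻¹ := by
    rw [zpow_neg]; norm_cast
  have e6' : denom γ τ ^ (-6 : ℤ) = (denom γ τ ^ 6)⁻¹ := by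
    rw [zpow_neg]; norm_cast
  rw [e4, e6, e2, e6']
  field_simp

lemma Lfun_slash (c : ℂ) (g : ℍ → ℂ) (γ : SL(2, ℤ)) :
    Lfun c g ∣[(4 : ℤ)] γ = Lfun c (g ∣[(2 : ℤ)] γ) := by
  funext τ
  have hd : denom γ τ ≠ 0 := denom_ne_zero _ _
  rw [ModularForm.SL_slash_apply, Lfun, Lfun, slash_two_apply]
  have h4 := E₄_smul γ τ
  rw [h4]
  have e4 : denom γ τ ^ (4 : ℤ) = denom γ τ ^ 4 := by norm_cast
  have e2 : denom γ τ ^ (-2 : ℤ) = (denom γ τ ^ 2)⁻¹ := by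
    rw [zpow_neg]; norm_cast
  have e4' : denom γ τ ^ (-4 : ℤ) = (denom γ τ ^ 4)⁻¹ := by
    rw [zpow_neg]; norm_cast
  rw [e4, e2, e4']
  field_simp

lemma apply_smul_eq (g : ℍ → ℂ) (γ : SL(2, ℤ)) (τ : ℍ) :
    g (γ • τ) = denom γ τ ^ 2 * (g ∣[(2 : ℤ)] γ) τ := by
  have hd : denom γ τ ≠ 0 := denom_ne_zero _ _
  rw [slash_two_apply]
  have e2 : denom γ τ ^ (-2 : ℤ) = (denom γ τ ^ 2)⁻¹ := by
    rw [zpow_neg]; norm_cast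
  rw [e2]
  field_simp

lemma Kfun_smul (c : ℂ) (g : ℍ → ℂ) (γ : SL(2, ℤ)) (τ : ℍ) :
    Kfun c g (γ • τ) = denom γ τ ^ 6 * Kfun c (g ∣[(2 : ℤ)] γ) τ := by
  have hd : denom γ τ ≠ 0 := denom_ne_zero _ _
  rw [← Kfun_slash, ModularForm.SL_slash_apply]
  have e6' : denom γ τ ^ (-6 : ℤ) = (denom γ τ ^ 6)⁻¹ := by
    rw [zpow_neg]; norm_cast
  rw [e6']
  field_simp

lemma Lfun_smul (c : ℂ) (g : ℍ → ℂ) (γ : SL(2, ℤ)) (τ : ℍ) :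
    Lfun c g (γ • τ) = denom γ τ ^ 4 * Lfun c (g ∣[(2 : ℤ)] γ) τ := by
  have hd : denom γ τ ≠ 0 := denom_ne_zero _ _
  rw [← Lfun_slash, ModularForm.SL_slash_apply]
  have e4' : denom γ τ ^ (-4 : ℤ) = (denom γ τ ^ 4)⁻¹ := by
    rw [zpow_neg]; norm_cast
  rw [e4']
  field_simp

/-- The conjugates of `Z`: `Z(g) ∣₁₂ γ = Z(g ∣₂ γ)`. -/
theorem Zfun_slash (c : ℂ) (g : ℍ → ℂ) (γ : SL(2, ℤ)) :
    Zfun c g ∣[(12 : ℤ)] γ = Zfun c (g ∣[(2 : ℤ)] γ) := by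
  funext τ
  have hd : denom γ τ ≠ 0 := denom_ne_zero _ _
  rw [ModularForm.SL_slash_apply, Zfun, Zfun, Kfun_smul, Lfun_smul, apply_smul_eq g γ τ]
  have e12 : denom γ τ ^ (-12 : ℤ) = (denom γ τ ^ 12)⁻¹ := by
    rw [zpow_neg]; norm_cast
  rw [e12]
  field_simp

/-- The conjugates of `V`: `V(g) ∣₁₂ γ = V(g ∣₂ γ)`. -/
theorem Vfun_slash (c : ℂ) (g : ℍ → ℂ) (γ : SL(2, ℤ)) :
    Vfun c g ∣[(12 : ℤ)] γ = Vfun c (g ∣[(2 : ℤ)] γ) := by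
  funext τ
  have hd : denom γ τ ≠ 0 := denom_ne_zero _ _
  rw [ModularForm.SL_slash_apply, Vfun, Vfun, Lfun_smul]
  have e12 : denom γ τ ^ (-12 : ℤ) = (denom γ τ ^ 12)⁻¹ := by
    rw [zpow_neg]; norm_cast
  rw [e12]
  field_simp

/-! ### The value at `ρ` -/

lemma E₆_ρ_sq : E₆ ρ ^ 2 = -1728 * Δ ρ := by
  have h := discriminant_eq_E₄_cube_sub_E₆_sq ρ
  rw [E₄_ρ] at h
  rw [h]
  ring

/-- **The value identity at `ρ`**, for an arbitrary function `g` in place of `G`. -/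
theorem value_at_rho (c : ℂ) (g : ℍ → ℂ) :
    Zfun c g ρ / Δ ρ = -27 * c ^ 2 / 4 - 4 * (Vfun c g ρ / Δ ρ) := by
  refine value_identity c (g ρ) (E₆ ρ) (Δ ρ) (Kfun c g ρ) (Lfun c g ρ) (Zfun c g ρ)
    (discriminant_ne_zero ρ) E₆_ρ_sq ?_ ?_ ?_
  · rw [Kfun, E₄_ρ]; ring
  · rw [Lfun, E₄_ρ]; ring
  · rw [Zfun]; ring

/-! ### The modular forms on `Γ₀(p)` -/

/-- Restriction of a level-one form to a subgroup of `SL(2,ℤ)`. -/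
def restrictForm {k : ℤ} (Γ : Subgroup (GL (Fin 2) ℝ)) (hΓ : Γ ≤ 𝒮ℒ) (f : ModularForm 𝒮ℒ k) :
    ModularForm Γ k where
  toFun := f
  slash_action_eq' γ hγ := f.slash_action_eq' γ (hΓ hγ)
  holo' := f.holo'
  bdd_at_cusps' hc := f.bdd_at_cusps' (hc.mono hΓ)

@[simp] lemma coe_restrictForm {k : ℤ} (Γ : Subgroup (GL (Fin 2) ℝ)) (hΓ : Γ ≤ 𝒮ℒ)
    (f : ModularForm 𝒮ℒ k) : ⇑(restrictForm Γ hΓ f) = ⇑f := rfl

lemma Gamma0_le_SL (p : ℕ) : (Gamma0 p : Subgroup (GL (Fin 2) ℝ)) ≤ 𝒮ℒ :=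
  Subgroup.map_le_range _ _

variable (p : ℕ) (G : ModularForm (Gamma0 p) 2) (c : ℂ)

/-- `E₄` on `Γ₀(p)`. -/
def E4p : ModularForm (Gamma0 p) 4 := restrictForm _ (Gamma0_le_SL p) E₄
/-- `E₆` on `Γ₀(p)`. -/
def E6p : ModularForm (Gamma0 p) 6 := restrictForm _ (Gamma0_le_SL p) E₆

/-- `K = (G E₄ - c E₆)/8 ∈ M₆(Γ₀(p))`. -/
def Kform : ModularForm (Gamma0 p) 6 :=
  (8⁻¹ : ℂ) • (ModularForm.mcast (by norm_num) (G.mul (E4p p)) - c • E6p p)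

/-- `L₂ = (G² - c² E₄)/16 ∈ M₄(Γ₀(p))`. -/
def Lform : ModularForm (Gamma0 p) 4 :=
  (16⁻¹ : ℂ) • (ModularForm.mcast (by norm_num) (G.mul G) - c ^ 2 • E4p p)

/-- `Z = (K² - G² L₂²)/4 ∈ M₁₂(Γ₀(p))`. -/
def Zform : ModularForm (Gamma0 p) 12 :=
  (4⁻¹ : ℂ) • (ModularForm.mcast (by norm_num) ((Kform p G c).mul (Kform p G c)) -
    ModularForm.mcast (by norm_num) ((G.mul G).mul ((Lform p G c).mul (Lform p G c))))

/-- `V = L₂³ ∈ M₁₂(Γ₀(p))`. -/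
def Vform : ModularForm (Gamma0 p) 12 :=
  ModularForm.mcast (by norm_num) ((Lform p G c).mul ((Lform p G c).mul (Lform p G c)))

lemma coe_Kform : ⇑(Kform p G c) = Kfun c ⇑G := by
  funext τ
  simp only [Kform, Kfun, smul_apply, sub_apply, ModularForm.mcast_apply,
    ModularForm.coe_mul, Pi.mul_apply, E4p, E6p, coe_restrictForm, smul_eq_mul]
  ring

lemma coe_Lform : ⇑(Lform p G c) = Lfun c ⇑G := by
  funext τ
  simp only [Lform, Lfun, smul_apply, sub_apply, ModularForm.mcast_apply,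
    ModularForm.coe_mul, Pi.mul_apply, E4p, coe_restrictForm, smul_eq_mul]
  ring

theorem coe_Zform : ⇑(Zform p G c) = Zfun c ⇑G := by
  funext τ
  simp only [Zform, Zfun, smul_apply, sub_apply, ModularForm.mcast_apply,
    ModularForm.coe_mul, Pi.mul_apply, coe_Kform, coe_Lform, smul_eq_mul]
  ring

theorem coe_Vform : ⇑(Vform p G c) = Vfun c ⇑G := by
  funext τ
  simp only [Vform, Vfun, ModularForm.mcast_apply, ModularForm.coe_mul, Pi.mul_apply, coe_Lform]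
  ring

/-- The conjugates of `Z` under `SL(2,ℤ)`. -/
theorem Zform_slash (γ : SL(2, ℤ)) :
    ⇑(Zform p G c) ∣[(12 : ℤ)] γ = Zfun c (⇑G ∣[(2 : ℤ)] γ) := by
  rw [coe_Zform, Zfun_slash]

/-- The conjugates of `V` under `SL(2,ℤ)`. -/
theorem Vform_slash (γ : SL(2, ℤ)) :
    ⇑(Vform p G c) ∣[(12 : ℤ)] γ = Vfun c (⇑G ∣[(2 : ℤ)] γ) := by
  rw [coe_Vform, Vfun_slash]

/-- **The value identity at `ρ` for every conjugate.** -/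
theorem conj_value_at_rho (γ : SL(2, ℤ)) :
    (⇑(Zform p G c) ∣[(12 : ℤ)] γ) ρ / Δ ρ =
      -27 * c ^ 2 / 4 - 4 * ((⇑(Vform p G c) ∣[(12 : ℤ)] γ) ρ / Δ ρ) := by
  rw [Zform_slash, Vform_slash]
  exact value_at_rho c _

end Fermat.Agent.S16lib.M4.Forms
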