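/-
S16 library, package M4 (helper7): values at `ρ` of the conjugates of a weight-12 form on `Γ₀(p)`
whose conjugates have `t`-expansions with coefficients in a subring `A ⊆ ℂ`, and the resulting
abstract form of Main Theorem 4:

* `esymm_rho_conj_mem`: `esymm_i({F_γ(ρ)}_γ) / Δ(ρ)^i ∈ A`;
* `rho_div_mem_awayInt`: for `A = awayInt p`: `F(ρ)/Δ(ρ) ∈ awayInt p`;
* `mt4_of_series`: if the conjugates of `Z` and `V` (helper9's `M4.Forms`) have `t`-expansions with
  coefficients in `awayInt p`, `p` and `c` odd, then `False`.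
-/
import Fermat.Agent.S16lib.M4.RhoValue
import Fermat.Agent.S16lib.M4.Forms
import Fermat.Agent.S16lib.TX.Integral

set_option autoImplicit false

noncomputable section

namespace Fermat.Agent.S16lib.M4

open UpperHalfPlane ModularForm MatrixGroups CongruenceSubgroup SlashInvariantForm
  ModularFormClass EisensteinSeries
open Fermat.Agent.S16lib.TX

variable (p : ℕ) [Fact p.Prime]

/-- the multiset of the values at `ρ` of the `p + 1` conjugates of `F`. -/
def rhoValues {k : ℤ} (F : ModularForm (Gamma0 p) k) : Multiset ℂ :=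
  (Finset.univ : Finset (Option (Fin p))).val.map fun x => TX.conj p F x ρ

lemma self_mem_rhoValues {k : ℤ} (F : ModularForm (Gamma0 p) k) : F ρ ∈ rhoValues p F :=
  Multiset.mem_map.mpr ⟨none, Finset.mem_univ_val _, rfl⟩

lemma esymmForm_rho {k : ℤ} (F : ModularForm (Gamma0 p) k) (i : ℕ) :
    TX.esymmForm p F i ρ = (rhoValues p F).esymm i := by
  rw [rhoValues, Finset.esymm_map_val]
  have := congrFun (TX.coe_esymmForm p F i) ρ
  rw [this, Finset.sum_apply]
  refine Finset.sum_congr rfl fun t _ => ?_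
  rw [Finset.prod_apply]

/-- If the `t`-expansions of the conjugates of a weight-`12` form `F` on `Γ₀(p)` have coefficients
in `A`, then `esymm_i` of the values at `ρ` of the conjugates, divided by `Δ(ρ)^i`, lies in `A`. -/
theorem esymm_rho_conj_mem (A : Subring ℂ) (F : ModularForm (Gamma0 p) 12)
    (P : Option (Fin p) → PowerSeries A)
    (hP : ∀ x, qExpansion (p : ℝ) (TX.conj p F x) = (P x).map A.subtype) (i : ℕ) :
    (rhoValues p F).esymm i / ModularForm.discriminant ρ ^ i ∈ A := by
  rw [← esymmForm_rho]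
  exact rho_value_mem A i ((12 : ℤ) * (i : ℤ)) rfl (TX.esymmForm p F i) (TX.esymmSeries p P i)
    (TX.qExpansion_one_esymmForm_eq_map p F A P hP i).symm

/-- For `A = awayInt p` (integrally closed): `F(ρ)/Δ(ρ)` itself is `p`-integral. -/
theorem rho_div_mem_awayInt (F : ModularForm (Gamma0 p) 12)
    (P : Option (Fin p) → PowerSeries (awayInt p))
    (hP : ∀ x, qExpansion (p : ℝ) (TX.conj p F x) = (P x).map (awayInt p).subtype) :
    F ρ / ModularForm.discriminant ρ ∈ awayInt p := by
  set δ : ℂ := ModularForm.discriminant ρ with hδdef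
  apply mem_awayInt_of_esymm_mem ((rhoValues p F).map (δ⁻¹ • ·))
  · intro i
    rw [← Multiset.pow_smul_esymm, smul_eq_mul, inv_pow, mul_comm, ← div_eq_mul_inv]
    exact esymm_rho_conj_mem p (awayInt p) F P hP i
  · exact Multiset.mem_map.mpr ⟨F ρ, self_mem_rhoValues p F,
      by rw [smul_eq_mul, mul_comm, div_eq_mul_inv]⟩

/-- **MT4 from integrality of the conjugate expansions.** -/
theorem mt4_of_series (hp : Odd p) {c : ℤ} (hc : Odd c) (G : ModularForm (Gamma0 p) 2)
    (PZ PV : Option (Fin p) → PowerSeries (awayInt p))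
    (hPZ : ∀ x, qExpansion (p : ℝ) (TX.conj p (Forms.Zform p G (c : ℂ)) x) =
      (PZ x).map (awayInt p).subtype)
    (hPV : ∀ x, qExpansion (p : ℝ) (TX.conj p (Forms.Vform p G (c : ℂ)) x) =
      (PV x).map (awayInt p).subtype) : False := by
  have hz := rho_div_mem_awayInt p (Forms.Zform p G (c : ℂ)) PZ hPZ
  have hv := rho_div_mem_awayInt p (Forms.Vform p G (c : ℂ)) PV hPV
  have hid := Forms.value_at_rho (c : ℂ) ⇑G
  rw [← Forms.coe_Zform p G (c : ℂ), ← Forms.coe_Vform p G (c : ℂ)] at hid
  exact contradiction hp hc hz hv hid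

end Fermat.Agent.S16lib.M4
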