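/-
S16 library, package M4 (helper7): the `t`-expansions (`t = q^{1/p}`) of `E₄`, `E₆` in the shape
needed by `M4.KLZ_mem` / `M4.ExpandCore.exists_series_Zfun_Vfun`:

`E₄ = 1 + 240 s₃`, `E₆ = 1 - 504 (s₃ + 2 d)` with `s₃ = Σ σ₃(n) t^{pn}`,
`d = Σ (σ₅(n) - σ₃(n))/2 t^{pn}` integral series (over any subring `A ⊆ ℂ`).
-/
import Fermat.Agent.S16lib.TX.Forms
import Fermat.Agent.S16lib.SwDBridge.Structure

set_option autoImplicit false

noncomputable section

namespace Fermat.Agent.S16lib.M4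

open UpperHalfPlane ModularForm MatrixGroups CongruenceSubgroup EisensteinSeries
open Fermat.Agent.S16lib.TX Fermat.Agent.S16lib.SwDBridge

/-! ### the integral series `s₃ = Σ σ₃(n) qⁿ` and `d = Σ (σ₅(n) - σ₃(n))/2 qⁿ` -/

theorem two_dvd_sigma_five_sub_sigma_three (n : ℕ) :
    (2 : ℤ) ∣ (ArithmeticFunction.sigma 5 n : ℤ) - (ArithmeticFunction.sigma 3 n : ℤ) := by
  rw [ArithmeticFunction.sigma_apply, ArithmeticFunction.sigma_apply]
  push_cast
  rw [← Finset.sum_sub_distrib]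
  apply Finset.dvd_sum
  intro d _
  have h : (d : ℤ) ^ 5 - (d : ℤ) ^ 3 = (d : ℤ) ^ 3 * ((d : ℤ) - 1) * ((d : ℤ) + 1) := by ring
  rw [h]
  rcases Int.even_or_odd (d : ℤ) with hd | hd
  · exact Dvd.dvd.mul_right (Dvd.dvd.mul_right (Dvd.dvd.pow hd.two_dvd (by norm_num)) _) _
  · have : Even ((d : ℤ) + 1) := hd.add_one
    exact Dvd.dvd.mul_left this.two_dvd _

/-- `Σ_{n ≥ 1} σ₃(n) qⁿ`. -/
def s3z : PowerSeries ℤ :=
  PowerSeries.mk fun n => if n = 0 then 0 else (ArithmeticFunction.sigma 3 n : ℤ)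

/-- `Σ_{n ≥ 1} (σ₅(n) - σ₃(n))/2 qⁿ`. -/
def d5z : PowerSeries ℤ :=
  PowerSeries.mk fun n => if n = 0 then 0 else
    ((ArithmeticFunction.sigma 5 n : ℤ) - (ArithmeticFunction.sigma 3 n : ℤ)) / 2

theorem Qz_eq : Qz = 1 + 240 * s3z := by
  ext n
  have h240 : (240 : PowerSeries ℤ) = PowerSeries.C (240 : ℤ) := by simp [map_ofNat]
  rw [Qz, coeff_sigmaSeries, map_add, h240, PowerSeries.coeff_C_mul, s3z, PowerSeries.coeff_mk,
    PowerSeries.coeff_one]
  split_ifs <;> simp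

theorem Rz_eq : Rz = 1 - 504 * (s3z + 2 * d5z) := by
  ext n
  have h504 : (504 : PowerSeries ℤ) = PowerSeries.C (504 : ℤ) := by simp [map_ofNat]
  have h2 : (2 : PowerSeries ℤ) = PowerSeries.C (2 : ℤ) := by simp [map_ofNat]
  rw [Rz, coeff_sigmaSeries, map_sub, h504, PowerSeries.coeff_C_mul, map_add, h2,
    PowerSeries.coeff_C_mul, s3z, d5z, PowerSeries.coeff_mk, PowerSeries.coeff_mk,
    PowerSeries.coeff_one]
  split_ifs with hn
  · simp
  · have := Int.mul_ediv_cancel' (two_dvd_sigma_five_sub_sigma_three n)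
    rw [this]; ring

/-! ### `t`-expansions of `E₄`, `E₆` -/

variable (p : ℕ) [NeZero p]

/-- The `t`-expansion of a `1`-periodic function is `expand p` of its `q`-expansion. -/
theorem qExpansion_nat_eq_expand {f : ℍ → ℂ} (hf : f ∈ holRing (1 : ℝ)) :
    qExpansion (p : ℝ) f = PowerSeries.expand p (NeZero.ne p) (qExpansion 1 f) := by
  rw [TX.qExpansion_nat_eq p hf]
  ext m
  rw [PowerSeries.coeff_mk, PowerSeries.coeff_expand]

variable (A : Subring ℂ)

/-- the series `s₃(t^p)` over `A`. -/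
def s3A : PowerSeries A := PowerSeries.expand p (NeZero.ne p) (s3z.map (Int.castRingHom A))
/-- the series `d(t^p)` over `A`. -/
def d5A : PowerSeries A := PowerSeries.expand p (NeZero.ne p) (d5z.map (Int.castRingHom A))

theorem qExpansion_nat_E₄ :
    qExpansion (p : ℝ) (E₄ : ℍ → ℂ) = 1 + 240 * (s3A p A).map A.subtype := by
  rw [qExpansion_nat_eq_expand p (TX.coe_mem_holRing_one_levelOne E₄), qExpansion_E₄', Qz_eq, s3A,
    PowerSeries.map_expand, SwDBridge.map_map_int]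
  simp only [map_add, map_mul, map_one, map_ofNat]

theorem qExpansion_nat_E₆ :
    qExpansion (p : ℝ) (E₆ : ℍ → ℂ) =
      1 - 504 * ((s3A p A).map A.subtype + 2 * (d5A p A).map A.subtype) := by
  rw [qExpansion_nat_eq_expand p (TX.coe_mem_holRing_one_levelOne E₆), qExpansion_E₆', Rz_eq, s3A,
    d5A, PowerSeries.map_expand, PowerSeries.map_expand, SwDBridge.map_map_int,
    SwDBridge.map_map_int]
  simp only [map_add, map_sub, map_mul, map_one, map_ofNat]

end Fermat.Agent.S16lib.M4
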