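import Fermat.Agent.S16lib.M4.ExpandCore
import Fermat.Agent.S16lib.M4.RhoConj
import Fermat.Agent.S16lib.M4.SigmaSeries
import Fermat.Agent.S16lib.Op.Weight2
import Fermat.Agent.S16lib.UpperBound

/-!
# S16, MT4 (`ℓ = 2`, `e = 3`, `p ≡ 7 mod 8`): assembly
-/

set_option autoImplicit false

noncomputable section

namespace Fermat.Agent.S16lib.M4.Final

open UpperHalfPlane ModularForm MatrixGroups CongruenceSubgroup EisensteinSeries ModularFormClass
open Fermat.Agent.S16lib.TX Fermat.Agent.S16lib.M4.Forms Fermat.Agent.S16lib.M4.ExpandCore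

lemma zetaP_pow (p : ℕ) [NeZero p] : zetaP p ^ p = 1 := by
  have hp : (p : ℂ) ≠ 0 := Nat.cast_ne_zero.mpr (NeZero.ne p)
  rw [zetaP, ← Complex.exp_nat_mul, mul_div_cancel₀ _ hp, Complex.exp_two_pi_mul_I]

lemma zetaP_mem_awayInt (p : ℕ) [NeZero p] : zetaP p ∈ awayInt p :=
  mem_awayInt_of_isIntegral
    (IsIntegral.of_pow (NeZero.pos p) (by rw [zetaP_pow]; exact isIntegral_one))

/-- The shape `c + 8h` of the conjugate series. -/
theorem conjSeries_eq (p : ℕ) [NeZero p] (hp8 : p % 8 = 7) (A : Subring ℂ) (ζ pk : A)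
    (hpk : (pk : ℂ) * (p : ℂ) = 1) (c : ℤ) (m : ℕ → ℤ) (x : Option (Fin p)) :
    ∃ h : PowerSeries A,
      conjSeries p ζ pk (fun n => if n = 0 then (c : A) else 8 * (m n : A))
        (fun n => -(if n * p = 0 then (c : A) else 8 * (m (n * p) : A))) x =
        PowerSeries.C (c : A) + 8 * h := by
  have h8 : (8 : PowerSeries A) = PowerSeries.C (8 : A) := (map_ofNat _ 8).symm
  have hp0 : p ≠ 0 := NeZero.ne p
  cases x with
  | none =>
    refine ⟨PowerSeries.mk fun n => if p ∣ n ∧ n ≠ 0 then (m (n / p) : A) else 0, ?_⟩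
    refine PowerSeries.ext fun n => ?_
    rw [conjSeries, PowerSeries.coeff_mk, map_add, PowerSeries.coeff_C, h8, PowerSeries.coeff_C_mul,
      PowerSeries.coeff_mk]
    by_cases hn : n = 0
    · subst hn
      simp
    · by_cases hpn : p ∣ n
      · have hq : n / p ≠ 0 := by
          obtain ⟨r, rfl⟩ := hpn
          rw [Nat.mul_div_cancel_left r (Nat.pos_of_ne_zero hp0)]
          rintro rfl
          exact hn (mul_zero p)
        simp [hn, hpn, hq]
      · simp [hn, hpn]
  | some j =>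
    have hpk' : pk * ((p : ℕ) : A) = 1 := by
      apply Subtype.ext
      rw [Subring.coe_mul, Subring.coe_natCast, Subring.coe_one]
      exact hpk
    refine ⟨PowerSeries.mk fun n => if n = 0 then -((c : A) * (((p + 1) / 8 : ℕ) : A) * pk)
      else -(pk * (m (n * p) : A) * ζ ^ ((j : ℕ) * n)), ?_⟩
    refine PowerSeries.ext fun n => ?_
    rw [conjSeries, PowerSeries.coeff_mk, map_add, PowerSeries.coeff_C, h8, PowerSeries.coeff_C_mul,
      PowerSeries.coeff_mk]
    by_cases hn : n = 0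
    · subst hn
      simp only [zero_mul, if_true, mul_zero, pow_zero, mul_one]
      have h18 : ((p : ℕ) : A) + 1 = 8 * (((p + 1) / 8 : ℕ) : A) := by
        have : p + 1 = 8 * ((p + 1) / 8) := by omega
        have h2 := congrArg (fun t : ℕ => (t : A)) this
        simp only [Nat.cast_add, Nat.cast_one, Nat.cast_mul, Nat.cast_ofNat] at h2
        exact h2
      -- `-c/p = c + 8 * (-(c * ((p+1)/8)) / p)`
      have : pk * -(c : A) = (c : A) + 8 * -((c : A) * (((p + 1) / 8 : ℕ) : A) * pk) := by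
        have e1 : (8 : A) * -((c : A) * (((p + 1) / 8 : ℕ) : A) * pk) =
            -((c : A) * pk * (8 * (((p + 1) / 8 : ℕ) : A))) := by ring
        rw [e1, ← h18]
        have e2 : (c : A) * pk * (((p : ℕ) : A) + 1) = (c : A) * (pk * ((p : ℕ) : A)) + (c : A) * pk := by
          ring
        rw [e2, hpk']
        ring
      exact this
    · have hnp : n * p ≠ 0 := Nat.mul_ne_zero hn hp0
      simp only [hn, hnp, if_false]
      ring

lemma conj_Zform (p : ℕ) (G : ModularForm (Gamma0 p) 2) (c : ℂ) (x : Option (Fin p)) :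
    TX.conj p (Zform p G c) x = Zfun c (TX.conj p G x) := by
  cases x with
  | none => rw [TX.conj_none, TX.conj_none, coe_Zform]
  | some j => rw [TX.conj_some, TX.conj_some, Zform_slash]

lemma conj_Vform (p : ℕ) (G : ModularForm (Gamma0 p) 2) (c : ℂ) (x : Option (Fin p)) :
    TX.conj p (Vform p G c) x = Vfun c (TX.conj p G x) := by
  cases x with
  | none => rw [TX.conj_none, TX.conj_none, coe_Vform]
  | some j => rw [TX.conj_some, TX.conj_some, Vform_slash]

/-- **MT4.** -/
theorem mt4 (p : ℕ) [hp : Fact p.Prime] (hp8 : p % 8 = 7) : Red16.NoUnitConst p 2 3 := by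
  intro G hint h0 hk
  haveI : NeZero p := ⟨hp.out.ne_zero⟩
  have hp0 : p ≠ 0 := hp.out.ne_zero
  choose a ha using hint
  have hc2 : ¬ (2 : ℤ) ∣ a 0 := by
    have := h0 (a 0) (ha 0)
    simpa using this
  have hdiv : ∀ k, 1 ≤ k → ∃ m : ℤ, a k = 8 * m := by
    intro k hk1
    obtain ⟨m, hm⟩ := hk k hk1
    refine ⟨m, ?_⟩
    have : ((a k : ℤ) : ℂ) = ((8 * m : ℤ) : ℂ) := by
      rw [← ha k, hm]; push_cast; norm_num
    exact_mod_cast this
  choose! m hm using hdiv
  have hcodd : Odd (a 0) := by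
    rcases Int.even_or_odd (a 0) with h | h
    · exact absurd (even_iff_two_dvd.mp h) hc2
    · exact h
  obtain ⟨e, he⟩ := hcodd
  have hpodd : Odd p := by
    rw [Nat.odd_iff]; omega
  set A : Subring ℂ := awayInt p with hA
  set ζ : A := ⟨zetaP p, zetaP_mem_awayInt p⟩ with hζ
  set pk : A := ⟨((p : ℂ))⁻¹, inv_mem_awayInt hp0⟩ with hpkdef
  have hpk1 : (pk : ℂ) * (p : ℂ) = 1 := by
    rw [hpkdef]
    exact inv_mul_cancel₀ (Nat.cast_ne_zero.mpr hp0)
  have hpk2 : (pk : ℂ) = (p : ℂ) ^ (1 - (2 : ℤ)) := by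
    rw [hpkdef]
    norm_num
  set aA : ℕ → A := fun n => if n = 0 then ((2 * e + 1 : ℤ) : A) else 8 * (m n : A) with haA
  set bA : ℕ → A := fun n =>
    -(if n * p = 0 then ((2 * e + 1 : ℤ) : A) else 8 * (m (n * p) : A)) with hbA
  have hacoe : ∀ n, ((a n : ℤ) : ℂ) = (aA n : ℂ) := by
    intro n
    by_cases hn : n = 0
    · subst hn
      rw [haA]
      simp only [if_true, Subring.coe_intCast]
      rw [he]
    · rw [haA]
      simp only [hn, if_false]
      rw [hm n (by omega), Subring.coe_mul, Subring.coe_intCast,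
        show ((8 : A) : ℂ) = 8 from map_ofNat A.subtype 8]
      push_cast
      rfl
  have haq : ∀ n, (UpperHalfPlane.qExpansion 1 ⇑G).coeff n = aA n := by
    intro n
    have := ha n
    rw [ModularFormClass.qCoeff] at this
    rw [this, hacoe]
  have hbq : ∀ n, (UpperHalfPlane.qExpansion 1 ⇑(Op.wSlash p G)).coeff n = bA n := by
    intro n
    have h1 := Op.qCoeff_wSlash p G n
    rw [ModularFormClass.qCoeff, ModularFormClass.qCoeff] at h1
    rw [h1, haq (n * p), hbA, haA]
    simp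
  have key : ∀ x : Option (Fin p),
      (∃ z : PowerSeries A, z.map A.subtype =
        qExpansion (p : ℝ) (Zfun (((2 * e + 1 : ℤ)) : ℂ) (TX.conj p G x))) ∧
      (∃ v : PowerSeries A, v.map A.subtype =
        qExpansion (p : ℝ) (Vfun (((2 * e + 1 : ℤ)) : ℂ) (TX.conj p G x))) := by
    intro x
    obtain ⟨h, hh⟩ := conjSeries_eq p hp8 A ζ pk hpk1 (2 * e + 1) m x
    have hq := TX.qExpansion_conj_eq_map p G A ζ pk aA bA rfl hpk2 haq hbq x
    refine exists_series_Zfun_Vfun p hp.out.pos A e (TX.conj p G x) (TX.conj_mem_holRing p G x) h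
      (s3A p A) (d5A p A) ?_ (qExpansion_nat_E₄ p A) (qExpansion_nat_E₆ p A)
    have hh' : conjSeries p ζ pk aA bA x = PowerSeries.C (((2 * e + 1 : ℤ)) : A) + 8 * h := hh
    rw [hq, hh', map_add, map_mul, PowerSeries.map_C, map_ofNat, map_intCast]
  choose PZ hPZ using fun x => (key x).1
  choose PV hPV using fun x => (key x).2
  refine mt4_of_series p hpodd (c := 2 * e + 1) ⟨e, rfl⟩ G PZ PV (fun x => ?_) (fun x => ?_)
  · rw [conj_Zform, hPZ x]
  · rw [conj_Vform, hPV x]

end Fermat.Agent.S16lib.M4.Final
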