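/-
S16 library, package M4 (algebraic part, helper7): the `2`-adic bookkeeping of Main Theorem 4
(`ℓ = 2`, `e = 3`, `p ≡ 7 mod 8`).

* `Z_mem`: the power-series identity showing that `Z = (K² - G²L₂²)/4` has coefficients in the
  coefficient ring `S` as soon as `G = c + 8h`, `E₄ = 1 + 240 s₃`, `E₆ = 1 - 504 s₅` with
  `h, s₃ ∈ S`, `s₅ - s₃ ∈ 2S`, `c` odd.
* `value_identity`: at a point where `E₄ = 0`, `E₆² = -1728 Δ`:  `Z/Δ = -27c²/4 - 4 L₂³/Δ`.
* `awayInt p`: the subring of `ℂ` of all `x` with `p^k x` an algebraic integer for some `k`;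
  it is integrally closed in `ℂ`, and for `p`, `c` odd it does not contain `27c²/4`.
* `contradiction`: the final contradiction of MT4.
-/
import Mathlib

set_option autoImplicit false

namespace Fermat.Agent.S16lib.M4

/-! ### the `2`-adic bookkeeping -/

section bookkeeping

variable {B : Type*} [CommRing B] [IsDomain B] [CharZero B]

/-- The power-series bookkeeping of MT4, in an arbitrary domain `B` of characteristic zero with a
subring `S` ("series with coefficients in `A`"): if `g = c + 8h`, `e4 = 1 + 240 s3`,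
`e6 = 1 - 504 s5` with `c = 2e+1` odd, `h, s3 ∈ S` and `s5 = s3 + 2d`, `d ∈ S`, then
`K = (g e4 - c e6)/8`, `L = (g² - c² e4)/16` and `Z = (K² - g² L²)/4` all lie in `S`. -/
theorem KLZ_mem (S : Subring B) (e : ℤ) {h s3 d : B} (hh : h ∈ S) (hs3 : s3 ∈ S) (hd : d ∈ S)
    {g e4 e6 K L Z : B} (hg : g = ((2 * e + 1 : ℤ) : B) + 8 * h) (he4 : e4 = 1 + 240 * s3)
    (he6 : e6 = 1 - 504 * (s3 + 2 * d))
    (hK : 8 * K = g * e4 - ((2 * e + 1 : ℤ) : B) * e6)
    (hL : 16 * L = g ^ 2 - ((2 * e + 1 : ℤ) : B) ^ 2 * e4)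
    (hZ : 4 * Z = K ^ 2 - g ^ 2 * L ^ 2) : K ∈ S ∧ L ∈ S ∧ Z ∈ S := by
  set c : B := ((2 * e + 1 : ℤ) : B) with hc
  have hcS : c ∈ S := by rw [hc]; exact intCast_mem S _
  have heS : ((e : ℤ) : B) ∈ S := intCast_mem S _
  have hce : c = 2 * (e : B) + 1 := by rw [hc]; push_cast; ring
  have h8 : (8 : B) ≠ 0 := by norm_num
  have h16 : (16 : B) ≠ 0 := by norm_num
  have h4 : (4 : B) ≠ 0 := by norm_num
  have n2 : (2 : B) ∈ S := ofNat_mem S 2
  have n4 : (4 : B) ∈ S := ofNat_mem S 4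
  have n6 : (6 : B) ∈ S := ofNat_mem S 6
  have n10 : (10 : B) ∈ S := ofNat_mem S 10
  have n15 : (15 : B) ∈ S := ofNat_mem S 15
  have n16 : (16 : B) ∈ S := ofNat_mem S 16
  have n18 : (18 : B) ∈ S := ofNat_mem S 18
  have n30 : (30 : B) ∈ S := ofNat_mem S 30
  have n60 : (60 : B) ∈ S := ofNat_mem S 60
  have n63 : (63 : B) ∈ S := ofNat_mem S 63
  have n120 : (120 : B) ∈ S := ofNat_mem S 120
  have n240 : (240 : B) ∈ S := ofNat_mem S 240
  -- explicit integral expressions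
  have hKe : K = h + 30 * c * s3 + 240 * h * s3 + 63 * c * (s3 + 2 * d) := by
    apply mul_left_cancel₀ h8
    rw [hK, hg, he4, he6]; ring
  have hLe : L = c * h + 4 * h ^ 2 - 15 * c ^ 2 * s3 := by
    apply mul_left_cancel₀ h16
    rw [hL, hg, he4]; ring
  have hKS : K ∈ S := by
    rw [hKe]
    exact S.add_mem (S.add_mem (S.add_mem hh (S.mul_mem (S.mul_mem n30 hcS) hs3))
      (S.mul_mem (S.mul_mem n240 hh) hs3))
      (S.mul_mem (S.mul_mem n63 hcS) (S.add_mem hs3 (S.mul_mem n2 hd)))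
  have hLS : L ∈ S := by
    rw [hLe]
    exact S.sub_mem (S.add_mem (S.mul_mem hcS hh) (S.mul_mem n4 (S.pow_mem hh 2)))
      (S.mul_mem (S.mul_mem n15 (S.pow_mem hcS 2)) hs3)
  -- `K - g L = 2 W`
  set W : B := (-(2 * (e : B) ^ 2) - 2 * e) * h + 3 * c * (18 + 10 * (e : B) ^ 2 + 10 * e) * s3
      + 63 * c * d + (120 + 60 * c ^ 2) * h * s3 - 6 * c * h ^ 2 - 16 * h ^ 3 with hW
  have hWS : W ∈ S := by
    rw [hW]
    refine S.sub_mem (S.sub_mem (S.add_mem (S.add_mem (S.add_mem ?_ ?_) ?_) ?_) ?_) ?_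
    · exact S.mul_mem (S.sub_mem (S.neg_mem (S.mul_mem n2 (S.pow_mem heS 2))) (S.mul_mem n2 heS)) hh
    · exact S.mul_mem (S.mul_mem (S.mul_mem (ofNat_mem S 3) hcS)
        (S.add_mem (S.add_mem n18 (S.mul_mem n10 (S.pow_mem heS 2))) (S.mul_mem n10 heS))) hs3
    · exact S.mul_mem (S.mul_mem n63 hcS) hd
    · exact S.mul_mem (S.mul_mem (S.add_mem n120 (S.mul_mem n60 (S.pow_mem hcS 2))) hh) hs3
    · exact S.mul_mem (S.mul_mem n6 hcS) (S.pow_mem hh 2)
    · exact S.mul_mem n16 (S.pow_mem hh 3)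
  have hKW : K - g * L = 2 * W := by
    rw [hKe, hLe, hg, hW, hce]; ring
  have hgS : g ∈ S := by
    rw [hg]; exact S.add_mem hcS (S.mul_mem (ofNat_mem S 8) hh)
  have hZe : Z = W * (W + g * L) := by
    apply mul_left_cancel₀ h4
    rw [hZ]
    have : K = g * L + 2 * W := by rw [← hKW]; ring
    rw [this]; ring
  refine ⟨hKS, hLS, ?_⟩
  rw [hZe]
  exact S.mul_mem hWS (S.add_mem hWS (S.mul_mem hgS hLS))

end bookkeeping

/-! ### the identity at `ρ` -/

/-- At a point where `E₄ = 0` and `E₆² = -1728 Δ`: `Z/Δ = -27c²/4 - 4 L³/Δ`. -/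
theorem value_identity {F : Type*} [Field F] [CharZero F] (c g e6 δ K L Z : F) (hδ : δ ≠ 0)
    (h1728 : e6 ^ 2 = -1728 * δ) (hK : 8 * K = g * 0 - c * e6) (hL : 16 * L = g ^ 2 - c ^ 2 * 0)
    (hZ : 4 * Z = K ^ 2 - g ^ 2 * L ^ 2) :
    Z / δ = -27 * c ^ 2 / 4 - 4 * (L ^ 3 / δ) := by
  have hK' : K = -c * e6 / 8 := by
    field_simp
    linear_combination hK
  have hg2 : g ^ 2 = 16 * L := by linear_combination -hL
  have hZ' : 4 * Z = -27 * c ^ 2 * δ - 16 * L ^ 3 := by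
    rw [hZ, hg2, hK']
    have : (-c * e6 / 8) ^ 2 = c ^ 2 * e6 ^ 2 / 64 := by ring
    rw [this, h1728]; ring
  field_simp
  linear_combination hZ'

/-! ### the ring of `p`-integral algebraic numbers -/

/-- The subring of `ℂ` of all `x` such that `p^k x` is an algebraic integer for some `k`
(the integral closure of `ℤ[1/p]` in `ℂ`). -/
def awayInt (p : ℕ) : Subring ℂ where
  carrier := {x | ∃ k : ℕ, IsIntegral ℤ ((p : ℂ) ^ k * x)}
  mul_mem' := by
    rintro a b ⟨k, hk⟩ ⟨l, hl⟩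
    refine ⟨k + l, ?_⟩
    have : (p : ℂ) ^ (k + l) * (a * b) = ((p : ℂ) ^ k * a) * ((p : ℂ) ^ l * b) := by
      rw [pow_add]; ring
    rw [this]; exact hk.mul hl
  one_mem' := ⟨0, by simpa using isIntegral_one⟩
  add_mem' := by
    rintro a b ⟨k, hk⟩ ⟨l, hl⟩
    refine ⟨k + l, ?_⟩
    have hp : IsIntegral ℤ (p : ℂ) := by
      have : (p : ℂ) = algebraMap ℤ ℂ (p : ℤ) := by simp
      rw [this]; exact isIntegral_algebraMap
    have : (p : ℂ) ^ (k + l) * (a + b) =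
        (p : ℂ) ^ l * ((p : ℂ) ^ k * a) + (p : ℂ) ^ k * ((p : ℂ) ^ l * b) := by
      rw [pow_add]; ring
    rw [this]; exact ((hp.pow l).mul hk).add ((hp.pow k).mul hl)
  zero_mem' := ⟨0, by simpa using isIntegral_zero⟩
  neg_mem' := by
    rintro a ⟨k, hk⟩
    exact ⟨k, by rw [mul_neg]; exact hk.neg⟩

theorem mem_awayInt {p : ℕ} {x : ℂ} : x ∈ awayInt p ↔ ∃ k : ℕ, IsIntegral ℤ ((p : ℂ) ^ k * x) :=
  Iff.rfl

theorem isIntegral_natCast (p : ℕ) : IsIntegral ℤ (p : ℂ) := by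
  have : (p : ℂ) = algebraMap ℤ ℂ (p : ℤ) := by simp
  rw [this]; exact isIntegral_algebraMap

theorem mem_awayInt_of_isIntegral {p : ℕ} {x : ℂ} (hx : IsIntegral ℤ x) : x ∈ awayInt p :=
  ⟨0, by simpa using hx⟩

theorem inv_mem_awayInt {p : ℕ} (hp : p ≠ 0) : ((p : ℂ))⁻¹ ∈ awayInt p :=
  ⟨1, by
    rw [pow_one, mul_inv_cancel₀ (Nat.cast_ne_zero.mpr hp)]
    exact isIntegral_one⟩

theorem pow_mul_mem {p : ℕ} {x : ℂ} {k : ℕ} (h : IsIntegral ℤ ((p : ℂ) ^ k * x)) (l : ℕ) (hl : k ≤ l) :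
    IsIntegral ℤ ((p : ℂ) ^ l * x) := by
  obtain ⟨m, rfl⟩ := Nat.exists_eq_add_of_le hl
  have : (p : ℂ) ^ (k + m) * x = (p : ℂ) ^ m * ((p : ℂ) ^ k * x) := by rw [pow_add]; ring
  rw [this]; exact ((isIntegral_natCast p).pow m).mul h

/-- `awayInt p` is integrally closed in `ℂ`. -/
theorem mem_awayInt_of_isIntegral_awayInt {p : ℕ} {x : ℂ} (hx : IsIntegral (awayInt p) x) :
    x ∈ awayInt p := by
  obtain ⟨f, hf, hfx⟩ := hx
  set n := f.natDegree with hn
  -- choose exponents for the coefficients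
  have hco : ∀ i, ∃ k : ℕ, IsIntegral ℤ ((p : ℂ) ^ k * ((f.coeff i : awayInt p) : ℂ)) :=
    fun i => (f.coeff i).2
  choose kk hkk using hco
  set k := (Finset.range n).sup kk with hk
  have hkle : ∀ i ∈ Finset.range n, kk i ≤ k := fun i hi => Finset.le_sup hi
  refine ⟨k, ?_⟩
  -- the integral closure of `ℤ` in `ℂ`
  let O := integralClosure ℤ ℂ
  have hb : ∀ i ∈ Finset.range n,
      IsIntegral ℤ (((f.coeff i : awayInt p) : ℂ) * ((p : ℂ) ^ k) ^ (n - i)) := by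
    intro i hi
    have hin : i < n := Finset.mem_range.mp hi
    obtain ⟨m, hm⟩ : ∃ m, n - i = m + 1 := ⟨n - i - 1, by omega⟩
    have : ((f.coeff i : awayInt p) : ℂ) * ((p : ℂ) ^ k) ^ (n - i) =
        ((p : ℂ) ^ k) ^ m * ((p : ℂ) ^ k * ((f.coeff i : awayInt p) : ℂ)) := by
      rw [hm, pow_succ]; ring
    rw [this]
    exact (((isIntegral_natCast p).pow k).pow m).mul (pow_mul_mem (hkk i) k (hkle i hi))
  -- the scaled polynomial over `O`
  let g : Polynomial O := Polynomial.X ^ n +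
    ∑ i ∈ (Finset.range n).attach,
      Polynomial.C (⟨_, (hb i.1 i.2 : _ ∈ integralClosure ℤ ℂ)⟩ : O) * Polynomial.X ^ (i : ℕ)
  have hgm : g.Monic := by
    apply Polynomial.monic_X_pow_add
    apply lt_of_le_of_lt (Polynomial.degree_sum_le _ _)
    apply (Finset.sup_lt_iff (WithBot.bot_lt_coe n)).mpr
    intro i _
    apply lt_of_le_of_lt (Polynomial.degree_C_mul_X_pow_le _ _)
    exact WithBot.coe_lt_coe.mpr (Finset.mem_range.mp i.2)
  have h1 : ∑ i ∈ Finset.range n, ((f.coeff i : awayInt p) : ℂ) * x ^ i + x ^ n = 0 := by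
    have := hfx
    rw [Polynomial.eval₂_eq_sum_range, Finset.sum_range_succ, ← hn, hn, hf.coeff_natDegree,
      map_one, one_mul] at this
    exact this
  have hgx : Polynomial.aeval ((p : ℂ) ^ k * x) g = 0 := by
    have e1 : Polynomial.aeval ((p : ℂ) ^ k * x) g = ((p : ℂ) ^ k * x) ^ n +
        ∑ i ∈ Finset.range n, (((f.coeff i : awayInt p) : ℂ) * ((p : ℂ) ^ k) ^ (n - i)) *
          ((p : ℂ) ^ k * x) ^ i := by
      simp only [g, map_add, map_pow, Polynomial.aeval_X, map_sum, map_mul, Polynomial.aeval_C]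
      congr 1
      exact Finset.sum_attach (Finset.range n) (fun i =>
        (((f.coeff i : awayInt p) : ℂ) * ((p : ℂ) ^ k) ^ (n - i)) * ((p : ℂ) ^ k * x) ^ i)
    rw [e1]
    have e2 : ∀ i ∈ Finset.range n, (((f.coeff i : awayInt p) : ℂ) * ((p : ℂ) ^ k) ^ (n - i)) *
          ((p : ℂ) ^ k * x) ^ i = ((p : ℂ) ^ k) ^ n * (((f.coeff i : awayInt p) : ℂ) * x ^ i) := by
      intro i hi
      have hin : i < n := Finset.mem_range.mp hi
      have : ((p : ℂ) ^ k) ^ n = ((p : ℂ) ^ k) ^ (n - i) * ((p : ℂ) ^ k) ^ i := by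
        rw [← pow_add]; congr 1; omega
      rw [this, mul_pow]; ring
    rw [Finset.sum_congr rfl e2, ← Finset.mul_sum, mul_pow, ← mul_add, add_comm, h1, mul_zero]
  have h2 : IsIntegral O ((p : ℂ) ^ k * x) := ⟨g, hgm, hgx⟩
  exact isIntegral_trans _ h2


theorem not_mem_awayInt {p : ℕ} (hp : Odd p) {c : ℤ} (hc : Odd c) :
    (27 * (c : ℂ) ^ 2 / 4) ∉ awayInt p := by
  rintro ⟨k, hk⟩
  have hq : (p : ℂ) ^ k * (27 * (c : ℂ) ^ 2 / 4) =
      algebraMap ℚ ℂ ((p : ℚ) ^ k * (27 * (c : ℚ) ^ 2 / 4)) := by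
    simp
  rw [hq] at hk
  have hk' : IsIntegral ℤ ((p : ℚ) ^ k * (27 * (c : ℚ) ^ 2 / 4)) :=
    (isIntegral_algebraMap_iff (algebraMap ℚ ℂ).injective).mp hk
  obtain ⟨m, hm⟩ := IsIntegrallyClosed.isIntegral_iff.mp hk'
  have h4 : 4 * m = 27 * c ^ 2 * (p : ℤ) ^ k := by
    have : (4 * m : ℚ) = 27 * (c : ℚ) ^ 2 * (p : ℚ) ^ k := by
      have hm' : (m : ℚ) = (p : ℚ) ^ k * (27 * (c : ℚ) ^ 2 / 4) := by simpa using hm
      rw [hm']; ring
    exact_mod_cast this
  have hodd : Odd (27 * c ^ 2 * (p : ℤ) ^ k) :=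
    ((by decide : Odd (27 : ℤ)).mul hc.pow).mul (by exact_mod_cast hp : Odd (p : ℤ)).pow
  rw [← h4] at hodd
  exact (Int.not_odd_iff_even.mpr ⟨2 * m, by ring⟩) hodd

/-- The final contradiction of MT4: `-27c²/4 = z + 4v` with `z, v` `p`-integral algebraic numbers,
`p` and `c` odd. -/
theorem contradiction {p : ℕ} (hp : Odd p) {c : ℤ} (hc : Odd c) {z v : ℂ} (hz : z ∈ awayInt p)
    (hv : v ∈ awayInt p) (h : z = -27 * (c : ℂ) ^ 2 / 4 - 4 * v) : False := by
  apply not_mem_awayInt hp hc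
  have : 27 * (c : ℂ) ^ 2 / 4 = -z - 4 * v := by rw [h]; ring
  rw [this]
  exact (awayInt p).sub_mem ((awayInt p).neg_mem hz) ((awayInt p).mul_mem (ofNat_mem _ 4) hv)

/-! ### Vieta -/

/-- If all elementary symmetric functions of a multiset of complex numbers lie in a subring `A`,
its elements are integral over `A`. -/
theorem isIntegral_of_esymm_mem (A : Subring ℂ) (s : Multiset ℂ) (h : ∀ i, s.esymm i ∈ A)
    {x : ℂ} (hx : x ∈ s) : IsIntegral A x := by
  set f : Polynomial ℂ := (s.map fun t => Polynomial.X - Polynomial.C t).prod with hf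
  have hmonic : f.Monic := by
    apply Polynomial.monic_multiset_prod_of_monic
    intro t _
    exact Polynomial.monic_X_sub_C t
  have hroot : f.eval x = 0 := by
    rw [hf, Polynomial.eval_multiset_prod]
    apply Multiset.prod_eq_zero
    rw [Multiset.map_map]
    exact Multiset.mem_map.mpr ⟨x, hx, by simp⟩
  have hcoeff : ∀ k, f.coeff k ∈ A := by
    intro k
    by_cases hk : k ≤ Multiset.card s
    · rw [hf, Multiset.prod_X_sub_C_coeff s hk]
      exact A.mul_mem (A.pow_mem (A.neg_mem A.one_mem) _) (h _)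
    · have hdeg : f.natDegree = Multiset.card s := by
        rw [hf]; simp
      rw [Polynomial.coeff_eq_zero_of_natDegree_lt (by omega)]
      exact A.zero_mem
  have hsub : (↑f.coeffs : Set ℂ) ⊆ A := by
    intro y hy
    obtain ⟨n, _, rfl⟩ := Polynomial.mem_coeffs_iff.mp hy
    exact hcoeff n
  refine ⟨f.toSubring A hsub, (Polynomial.monic_toSubring f A hsub).mpr hmonic, ?_⟩
  have : (algebraMap A ℂ) = A.subtype := rfl
  rw [this, Polynomial.eval₂_eq_eval_map, Polynomial.map_toSubring]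
  exact hroot

/-- Hence, if moreover `A = awayInt p`, they lie in `A`. -/
theorem mem_awayInt_of_esymm_mem {p : ℕ} (s : Multiset ℂ) (h : ∀ i, s.esymm i ∈ awayInt p)
    {x : ℂ} (hx : x ∈ s) : x ∈ awayInt p :=
  mem_awayInt_of_isIntegral_awayInt (isIntegral_of_esymm_mem _ s h hx)

end Fermat.Agent.S16lib.M4
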