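import Fermat.Agent.S16lib.M4.Forms
import Fermat.Agent.S16lib.TX.Integral

/-!
# S16, MT4: integrality of the `t`-expansions of `Z(g)`, `V(g)` (core of `M4/Expand`)
-/

set_option autoImplicit false

noncomputable section

namespace Fermat.Agent.S16lib.M4.ExpandCore

open UpperHalfPlane ModularForm MatrixGroups CongruenceSubgroup EisensteinSeries ModularFormClass
open Fermat.Agent.S16lib.TX Fermat.Agent.S16lib.M4.Forms

/-- Power series over `ℂ` with all coefficients in `A`. -/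
def seriesSubring (A : Subring ℂ) : Subring (PowerSeries ℂ) := (PowerSeries.map A.subtype).range

lemma mem_seriesSubring {A : Subring ℂ} {f : PowerSeries ℂ} :
    f ∈ seriesSubring A ↔ ∃ a : PowerSeries A, a.map A.subtype = f := Iff.rfl

lemma charZero_powerSeries : CharZero (PowerSeries ℂ) :=
  ⟨fun m n h => by
    have h1 := congrArg (PowerSeries.constantCoeff (R := ℂ)) h
    rw [map_natCast, map_natCast] at h1
    exact_mod_cast h1⟩

lemma E₄_mem_holRing (h : ℝ) (p : ℕ) (hh : h = p) : (⇑E₄ : ℍ → ℂ) ∈ holRing h := by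
  subst hh
  exact holRing_one_le p (coe_mem_holRing_one_levelOne E₄)

lemma E₆_mem_holRing (h : ℝ) (p : ℕ) (hh : h = p) : (⇑E₆ : ℍ → ℂ) ∈ holRing h := by
  subst hh
  exact holRing_one_le p (coe_mem_holRing_one_levelOne E₆)

/-- **Core of `M4/Expand`.**  If `g` has `t`-expansion `c + 8h`, `h ∈ A⟦t⟧`, `c` an odd integer,
and `E₄ = 1 + 240 s₃`, `E₆ = 1 - 504 (s₃ + 2d)` with `s₃, d ∈ A⟦t⟧`, then the `t`-expansions of
`Z(g)` and `V(g)` have coefficients in `A`. -/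
theorem exists_series_Zfun_Vfun (p : ℕ) (hp : 0 < p) (A : Subring ℂ) (e : ℤ) (g : ℍ → ℂ)
    (hg : g ∈ holRing (p : ℝ)) (h s3 d : PowerSeries A)
    (hgq : qExpansion (p : ℝ) g = PowerSeries.C (((2 * e + 1 : ℤ)) : ℂ) + 8 * h.map A.subtype)
    (h4 : qExpansion (p : ℝ) (⇑E₄ : ℍ → ℂ) = 1 + 240 * s3.map A.subtype)
    (h6 : qExpansion (p : ℝ) (⇑E₆ : ℍ → ℂ) =
      1 - 504 * (s3.map A.subtype + 2 * d.map A.subtype)) :
    (∃ z : PowerSeries A,
      z.map A.subtype = qExpansion (p : ℝ) (Zfun (((2 * e + 1 : ℤ)) : ℂ) g)) ∧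
    (∃ v : PowerSeries A,
      v.map A.subtype = qExpansion (p : ℝ) (Vfun (((2 * e + 1 : ℤ)) : ℂ) g)) := by
  have hpp : (0 : ℝ) < (p : ℝ) := Nat.cast_pos.mpr hp
  set c : ℂ := (((2 * e + 1 : ℤ)) : ℂ) with hc
  have hE4 := E₄_mem_holRing (p : ℝ) p rfl
  have hE6 := E₆_mem_holRing (p : ℝ) p rfl
  -- the functions as elements of `holRing p`
  have hKfun : Kfun c g = (8⁻¹ : ℂ) • (g * ⇑E₄ - c • ⇑E₆) := by
    funext τ
    simp only [Kfun, Pi.smul_apply, Pi.sub_apply, Pi.mul_apply, smul_eq_mul]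
    ring
  have hLfun : Lfun c g = (16⁻¹ : ℂ) • (g ^ 2 - (c ^ 2) • ⇑E₄) := by
    funext τ
    simp only [Lfun, Pi.smul_apply, Pi.sub_apply, Pi.pow_apply, smul_eq_mul]
    ring
  have hZfun : Zfun c g = (4⁻¹ : ℂ) • (Kfun c g ^ 2 - g ^ 2 * Lfun c g ^ 2) := by
    funext τ
    simp only [Zfun, Pi.smul_apply, Pi.sub_apply, Pi.mul_apply, Pi.pow_apply, smul_eq_mul]
    ring
  have hVfun : Vfun c g = Lfun c g ^ 3 := by
    funext τ
    simp only [Vfun, Pi.pow_apply]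
  have hK1 : (g * ⇑E₄ - c • ⇑E₆) ∈ holRing (p : ℝ) :=
    (holRing _).sub_mem ((holRing _).mul_mem hg hE4) (smul_mem_holRing c hE6)
  have hKmem : Kfun c g ∈ holRing (p : ℝ) := by
    rw [hKfun]; exact smul_mem_holRing _ hK1
  have hL1 : (g ^ 2 - (c ^ 2) • ⇑E₄) ∈ holRing (p : ℝ) :=
    (holRing _).sub_mem ((holRing _).pow_mem hg 2) (smul_mem_holRing _ hE4)
  have hLmem : Lfun c g ∈ holRing (p : ℝ) := by
    rw [hLfun]; exact smul_mem_holRing _ hL1
  have hZ1 : (Kfun c g ^ 2 - g ^ 2 * Lfun c g ^ 2) ∈ holRing (p : ℝ) :=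
    (holRing _).sub_mem ((holRing _).pow_mem hKmem 2)
      ((holRing _).mul_mem ((holRing _).pow_mem hg 2) ((holRing _).pow_mem hLmem 2))
  -- the expansions
  set qg := qExpansion (p : ℝ) g with hqg
  set q4 := qExpansion (p : ℝ) (⇑E₄ : ℍ → ℂ) with hq4
  set q6 := qExpansion (p : ℝ) (⇑E₆ : ℍ → ℂ) with hq6
  set K := qExpansion (p : ℝ) (Kfun c g) with hKdef
  set L := qExpansion (p : ℝ) (Lfun c g) with hLdef
  set Z := qExpansion (p : ℝ) (Zfun c g) with hZdef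
  have hcB : (((2 * e + 1 : ℤ)) : PowerSeries ℂ) = PowerSeries.C c := by
    rw [hc]; exact (map_intCast (PowerSeries.C (R := ℂ)) _).symm
  have smul_eq (a : ℂ) (f : PowerSeries ℂ) : a • f = PowerSeries.C a * f := by
    ext n; simp
  have hK8 : 8 * K = qg * q4 - (((2 * e + 1 : ℤ)) : PowerSeries ℂ) * q6 := by
    rw [hKdef, hKfun, qExpansion_smul_of_mem hpp hK1, qExpansion_sub_of_mem hpp
      ((holRing _).mul_mem hg hE4) (smul_mem_holRing c hE6), qExpansion_mul_of_mem hpp hg hE4,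
      qExpansion_smul_of_mem hpp hE6, hcB, smul_eq, smul_eq, ← mul_assoc]
    have : (8 : PowerSeries ℂ) * PowerSeries.C (8⁻¹ : ℂ) = 1 := by
      rw [← map_ofNat (PowerSeries.C (R := ℂ)) 8, ← map_mul]
      norm_num
    rw [this, one_mul]
  have hL16 : 16 * L = qg ^ 2 - (((2 * e + 1 : ℤ)) : PowerSeries ℂ) ^ 2 * q4 := by
    rw [hLdef, hLfun, qExpansion_smul_of_mem hpp hL1, qExpansion_sub_of_mem hpp
      ((holRing _).pow_mem hg 2) (smul_mem_holRing _ hE4), qExpansion_pow_of_mem hpp hg,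
      qExpansion_smul_of_mem hpp hE4, hcB, smul_eq, smul_eq, ← mul_assoc, ← map_pow]
    have : (16 : PowerSeries ℂ) * PowerSeries.C (16⁻¹ : ℂ) = 1 := by
      rw [← map_ofNat (PowerSeries.C (R := ℂ)) 16, ← map_mul]
      norm_num
    rw [this, one_mul]
  have hZ4 : 4 * Z = K ^ 2 - qg ^ 2 * L ^ 2 := by
    rw [hZdef, hZfun, qExpansion_smul_of_mem hpp hZ1, qExpansion_sub_of_mem hpp
      ((holRing _).pow_mem hKmem 2)
      ((holRing _).mul_mem ((holRing _).pow_mem hg 2) ((holRing _).pow_mem hLmem 2)),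
      qExpansion_pow_of_mem hpp hKmem, qExpansion_mul_of_mem hpp ((holRing _).pow_mem hg 2)
      ((holRing _).pow_mem hLmem 2), qExpansion_pow_of_mem hpp hg, qExpansion_pow_of_mem hpp hLmem,
      smul_eq, ← mul_assoc]
    have : (4 : PowerSeries ℂ) * PowerSeries.C (4⁻¹ : ℂ) = 1 := by
      rw [← map_ofNat (PowerSeries.C (R := ℂ)) 4, ← map_mul]
      norm_num
    rw [this, one_mul]
  haveI := charZero_powerSeries
  have hmem := KLZ_mem (B := PowerSeries ℂ) (seriesSubring A) e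
    (h := h.map A.subtype) (s3 := s3.map A.subtype) (d := d.map A.subtype)
    ⟨h, rfl⟩ ⟨s3, rfl⟩ ⟨d, rfl⟩ (g := qg) (e4 := q4) (e6 := q6) (K := K) (L := L) (Z := Z)
    (by rw [hcB]; exact hgq) h4 h6 hK8 hL16 hZ4
  obtain ⟨-, hLS, hZS⟩ := hmem
  refine ⟨hZS, ?_⟩
  have hV : qExpansion (p : ℝ) (Vfun c g) = L ^ 3 := by
    rw [hVfun, qExpansion_pow_of_mem hpp hLmem]
  rw [hV]
  exact (seriesSubring A).pow_mem hLS 3

end Fermat.Agent.S16lib.M4.ExpandCore
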